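/-
S33 (ordinary at `p` when `p ∥ N`): THE JUNCTION - the two-hole form of S33 (helper114).

`result_of_fun` : the frozen statement S33 (binders verbatim) from the two function-level
geometric targets of `S33/Geo/FunLevel` at the auxiliary level `N' * 2 * 2 * p`
(`N = N' * p`, `p ∤ N'`):

* `hI`  : `FunLevel.FunIStatement (N' * 2 * 2) p`   (row GEO-i : a `p`-Kummer function, trivial at
  both Gauss valuations, with inertia-invariant class, is a `p`-th power);
* `hII` : `FunLevel.FunII0Statement (N' * 2 * 2) p` (row GEO-ii₀).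

Chain (every name is a landed theorem):

  `W.Top.result_of_latExit`          frozen S33  ⟸  `W.Wiring.LatExit N p`
  `Lat.Inst.latExit_of_geoExit`      `LatExit (N' * p) p`  ⟸  `Geo.Contract.GeoExit N' p`
  `Geo.Contract.geoExit_of`          `GeoExit N' p`  ⟸  a Kummer system with `KDiv`, a swap,
                                     `GaSatStatement`, `GeoIStatement`, `GeoII0Statement`
  `exists_kdiv`                      the concrete system `S30.Producer.Assembly.kummerSystem`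
  `Geo.AuxRes.exists_isSwap`         the Atkin-Lehner swap at `p`
  `Geo.GaSat.gaSatStatement`         (Sub), (GA), (SAT)
  `Geo.AuxExit.geoIStatement_of_four`, `geoII0Statement_of_four`
                                     class level at `N' * p`  ⟸  function level at `N' * 2 * 2 * p`.

* `exists_kdiv`       : `∃ K, Contract.KDiv K` at every level `N' * p`;
* `geoExit_of_fun`    : `Contract.GeoExit N' p` from the two function-level targets;
* `latExit_of_fun`    : `W.Wiring.LatExit N p` for `p ∥ N`, `p` odd, from the two targets;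
* `result_of_fun`     : the frozen S33 with the two holes `hI`, `hII`;
* `result_of_fun_four`: the same with the holes quantified over all levels `M' * p`, `4 ∣ M'`.
-/
import Mathlib
import Fermat.Agent.S30.Producer.Final
import Fermat.Agent.S33.W.Top
import Fermat.Agent.S33.Geo.Contract
import Fermat.Agent.S33.Geo.AuxRes
import Fermat.Agent.S33.Geo.FunLevel
import Fermat.Agent.S33.Geo.AuxExit
import Fermat.Agent.S33.Geo.GaSat
import Fermat.Agent.S33.Lat.Inst

set_option autoImplicit false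

namespace Fermat.Agent.S33.Exit

/-- The concrete Kummer system of the S30 producer has `p ^ n`-divisible divisors
(the component `E4.DivBy` of `Producer.KRel`). -/
theorem exists_kdiv (N' p : ℕ) [NeZero N'] [NeZero p] [Fact p.Prime] :
    ∃ K : Fermat.Agent.S30.Producer.KummerSystem (N' * p) p,
      Fermat.Agent.S33.Geo.Contract.KDiv K :=
  ⟨Fermat.Agent.S30.Producer.Assembly.kummerSystem (N' * p) p
      (Fermat.Agent.S30.Producer.SurjXRoot.surj _) (Fermat.Agent.S30.Producer.bricks_k1 _),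
    fun _ _ _ h => h.2.1⟩

/-- **The geometric exit** at level `N' * p` from the two function-level targets at the
auxiliary level `N' * 2 * 2 * p`. -/
theorem geoExit_of_fun {N' p : ℕ} [NeZero N'] [NeZero p] [Fact p.Prime] (hp2 : p ≠ 2)
    (hpN' : ¬ p ∣ N')
    (hI : Fermat.Agent.S33.Geo.FunLevel.FunIStatement (N' * 2 * 2) p)
    (hII : Fermat.Agent.S33.Geo.FunLevel.FunII0Statement (N' * 2 * 2) p) :
    Fermat.Agent.S33.Geo.Contract.GeoExit N' p :=
  Fermat.Agent.S33.Geo.Contract.geoExit_of hp2 hpN' (exists_kdiv N' p)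
    (Fermat.Agent.S33.Geo.AuxRes.exists_isSwap Fact.out hpN')
    (Fermat.Agent.S33.Geo.GaSat.gaSatStatement N' p)
    (Fermat.Agent.S33.Geo.AuxExit.geoIStatement_of_four hI)
    (Fermat.Agent.S33.Geo.AuxExit.geoII0Statement_of_four hII)

/-- **The lattice exit** `LatExit N p` for `p ∥ N`, `p` odd, from the two function-level
targets at the auxiliary level. -/
theorem latExit_of_fun {N p : ℕ} [NeZero N] [Fact p.Prime] (hp2 : p ≠ 2)
    (hN : p ∣ N ∧ ¬ p ^ 2 ∣ N)
    (hI : ∀ (N' : ℕ) [NeZero N'], N = N' * p → ¬ p ∣ N' →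
      Fermat.Agent.S33.Geo.FunLevel.FunIStatement (N' * 2 * 2) p)
    (hII : ∀ (N' : ℕ) [NeZero N'], N = N' * p → ¬ p ∣ N' →
      Fermat.Agent.S33.Geo.FunLevel.FunII0Statement (N' * 2 * 2) p) :
    Fermat.Agent.S33.W.Wiring.LatExit N p := by
  obtain ⟨⟨N', hN'⟩, hsq⟩ := hN
  have hNN' : N = N' * p := by rw [hN', mul_comm]
  have hN'0 : NeZero N' := ⟨by
    rintro rfl
    exact NeZero.ne N (by rw [hNN', zero_mul])⟩
  have hpN' : ¬ p ∣ N' := by
    rintro ⟨m, rfl⟩
    exact hsq ⟨m, by rw [hN']; ring⟩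
  have h := Fermat.Agent.S33.Lat.Inst.latExit_of_geoExit hp2
    (geoExit_of_fun hp2 hpN' (hI N' hNN' hpN') (hII N' hNN' hpN'))
  subst hNN'
  exact h

section Frozen

variable {p : ℕ} {N : ℕ} [NeZero N] {S : Finset ℕ}
  {𝒪 : Type} [CommRing 𝒪] [IsDomain 𝒪] [IsDiscreteValuationRing 𝒪]
  [IsAdicComplete (IsLocalRing.maximalIdeal 𝒪) 𝒪]
  {θ : CuspForm.heckeAlgebra N 2 (↑S : Set ℕ) →+* IsLocalRing.ResidueField 𝒪}
  {T : Type} [CommRing T] [IsLocalRing T] [IsNoetherianRing T]
  [IsAdicComplete (IsLocalRing.maximalIdeal T) T] [Algebra 𝒪 T] [IsLocalHom (algebraMap 𝒪 T)]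
  [Module.Finite 𝒪 T] [Module.Free 𝒪 T]

/-- **S33 in its two-hole form**: the frozen statement (binders verbatim) from the two
function-level geometric targets at the auxiliary level `N' * 2 * 2 * p`, `N = N' * p`. -/
theorem result_of_fun
    [Finite (IsLocalRing.ResidueField 𝒪)] [CharZero 𝒪]
    (hp : p.Prime) (hp2 : p ≠ 2) (hp𝒪 : (p : 𝒪) ∈ IsLocalRing.maximalIdeal 𝒪) (hN : p ∣ N ∧ ¬ p ^ 2 ∣ N)
    (hNS : ∀ q : ℕ, q.Prime → q ∣ N → q ∈ S)
    (H : CuspForm.HeckeGaloisRepDatum N (↑S : Set ℕ) 𝒪 θ T)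
    (hres : (GaloisRepAdic.ofResidualGaloisRep H.ρ.residual).IsOrdinaryAt p)
    (hI : ∀ (N' : ℕ) [NeZero N'], N = N' * p → ¬ p ∣ N' →
      @Fermat.Agent.S33.Geo.FunLevel.FunIStatement (N' * 2 * 2) p _ ⟨hp.ne_zero⟩)
    (hII : ∀ (N' : ℕ) [NeZero N'], N = N' * p → ¬ p ∣ N' →
      @Fermat.Agent.S33.Geo.FunLevel.FunII0Statement (N' * 2 * 2) p _ ⟨hp.ne_zero⟩) :
    H.ρ.IsOrdinaryAt p :=
  haveI : Fact p.Prime := ⟨hp⟩
  Fermat.Agent.S33.W.Top.result_of_latExit hp hp2 hp𝒪 hN hNS H hres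
    (latExit_of_fun hp2 hN hI hII)

/-- **S33 in its two-hole form**, the holes quantified over all levels `M' * p` with
`4 ∣ M'`. -/
theorem result_of_fun_four
    [Finite (IsLocalRing.ResidueField 𝒪)] [CharZero 𝒪]
    (hp : p.Prime) (hp2 : p ≠ 2) (hp𝒪 : (p : 𝒪) ∈ IsLocalRing.maximalIdeal 𝒪) (hN : p ∣ N ∧ ¬ p ^ 2 ∣ N)
    (hNS : ∀ q : ℕ, q.Prime → q ∣ N → q ∈ S)
    (H : CuspForm.HeckeGaloisRepDatum N (↑S : Set ℕ) 𝒪 θ T)
    (hres : (GaloisRepAdic.ofResidualGaloisRep H.ρ.residual).IsOrdinaryAt p)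
    (hI : ∀ (M' : ℕ) [NeZero M'], 4 ∣ M' →
      @Fermat.Agent.S33.Geo.FunLevel.FunIStatement M' p _ ⟨hp.ne_zero⟩)
    (hII : ∀ (M' : ℕ) [NeZero M'], 4 ∣ M' →
      @Fermat.Agent.S33.Geo.FunLevel.FunII0Statement M' p _ ⟨hp.ne_zero⟩) :
    H.ρ.IsOrdinaryAt p :=
  result_of_fun hp hp2 hp𝒪 hN hNS H hres
    (fun N' _ _ _ => hI (N' * 2 * 2) ⟨N', by ring⟩)
    (fun N' _ _ _ => hII (N' * 2 * 2) ⟨N', by ring⟩)

end Frozen

end Fermat.Agent.S33.Exit
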